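import Fermat.Agent.SemistableEisenstein.Series
import Fermat.Agent.Semistable.Setting
import Fermat.Agent.SemistableHecke.ModularNorm

/-!
# The residual norm map of a good Hecke operator

`IsNrm`: the reduction of the norm along `T_ℓ` on the special fibre of `X₀(Mq)`; its effect on
orders at the crossings (`IsNrm.ord_congr`): those of `Δ(τ)/Δ(qτ)` are multiplied by `ℓ + 1`.
Used in `SemistableEisenstein.SlopeHecke`.
-/

set_option autoImplicit false
set_option linter.unusedSectionVars false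

noncomputable section

open AlgebraicCurve ModularCurve Polynomial IsLocalRing FLTAgent.FFBasic FLTAgent.Deuring
open FLTAgent.HeckeJacobian FLTAgent.CongruenceRel FLTAgent.Semistable.Level
open FLTAgent.SemistableHecke (HasBar)

namespace FLTAgent.Semistable.Eisenstein

local notation "Qbar" => AlgebraicClosure ℚ

variable {A : ValuationSubring Qbar}

theorem mem_of_pow_eq_one {n : ℕ} (hn : n ≠ 0) {x : Qbar} (h : x ^ n = 1) : x ∈ A :=
  mem_of_monic_root A (p := X ^ n - C 1) (monic_X_pow_sub_C 1 hn) (fun i => by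
    rw [coeff_sub, coeff_X_pow, coeff_C]
    split_ifs <;> first | exact sub_mem A.one_mem A.one_mem | exact sub_mem A.one_mem A.zero_mem |
      exact sub_mem A.zero_mem A.one_mem | exact sub_mem A.zero_mem A.zero_mem) (by simp [h])

theorem exists_unit_lift {n : ℕ} (hn : n ≠ 0) {u : Qbarˣ} (hu : u ^ n = 1) :
    ∃ v : Aˣ, ((v : A) : Qbar) = u := by
  have h1 : (u : Qbar) ^ n = 1 := by rw [← Units.val_pow_eq_pow_val, hu, Units.val_one]
  have h2 : ((u⁻¹ : Qbarˣ) : Qbar) ^ n = 1 := by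
    rw [← Units.val_pow_eq_pow_val, inv_pow, hu, inv_one, Units.val_one]
  exact ⟨⟨⟨_, mem_of_pow_eq_one hn h1⟩, ⟨_, mem_of_pow_eq_one hn h2⟩,
    Subtype.ext u.mul_inv, Subtype.ext u.inv_mul⟩, rfl⟩

local notation "kA" => ResidueField A

/-- Twisting by an integral unit commutes with taking residues. -/
theorem hasBar_twist {x : LaurentSeries Qbar} {r : LaurentSeries kA} (h : HasBar A x r)
    {u : Qbarˣ} {v : Aˣ} (huv : ((v : A) : Qbar) = u) :
    HasBar A (SemistableHecke.twist u x)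
      (SemistableHecke.twist (Units.map (residue A : A →* kA) v) r) := by
  obtain ⟨a, b, hb, e, hr⟩ := h
  set w := Units.map (residue A : A →* kA) v
  have hzv : ∀ n : ℤ, ((u ^ n : Qbarˣ) : Qbar) = (((v ^ n : Aˣ) : A) : Qbar) := fun n => by
    have hmap : Units.map (A.subtype : A →* Qbar) v = u := Units.ext huv
    rw [← hmap, ← map_zpow]
    rfl
  have key : ∀ y : LaurentSeries A, ∃ z : LaurentSeries A,
      coeffMap A.subtype z = SemistableHecke.twist u (coeffMap A.subtype y) ∧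
        coeffMap (residue A) z = SemistableHecke.twist w (coeffMap (residue A) y) := by
    intro y
    refine ⟨⟨fun n => ((v ^ n : Aˣ) : A) * y.coeff n,
      y.isPWO_support.mono fun n hn h0 => hn (by simp only; rw [h0, mul_zero])⟩, ?_, ?_⟩
    · ext n
      rw [SemistableHecke.twist_coeff, hzv]
      rfl
    · ext n
      rw [SemistableHecke.twist_coeff, ← map_zpow]
      show residue A (((v ^ n : Aˣ) : A) * y.coeff n) = _
      rw [map_mul]
      rfl
  obtain ⟨a', ha', har⟩ := key a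
  obtain ⟨b', hb', hbr⟩ := key b
  refine ⟨a', b', hbr ▸ (_root_.map_ne_zero _).mpr hb, by rw [ha', hb', ← map_mul, e], ?_⟩
  rw [har, hbr, hr, map_mul]

variable {M q : ℕ} [NeZero M] [Fact q.Prime] (S : Setting M q A (residue A))
variable [IsAlgClosed (ResidueField A)] [CharP (ResidueField A) q]
variable {ℓ : ℕ} [Fact ℓ.Prime] {u : Qbarˣ} {v : Aˣ}

local notation "ub" => Units.map (residue A : A →* kA) v
local notation "FM" => modularFunctionFieldFullC (ResidueField A) M

theorem hasBar_of_mem {f : modularFunctionFieldBar (M * q)} (hf : f ∈ (branch₁ S).O) :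
    HasBar A (f : LaurentSeries Qbar) ((branch₁ S).res ⟨f, hf⟩ : LaurentSeries kA) := by
  obtain ⟨y, z, hz, he⟩ := (Gauss.mem_ring A (residue A) (ι₁ M q)).mp hf
  refine ⟨y, z, hz, he, ?_⟩
  rw [coe_res₁, Gauss.res_mk A (residue A) (ι₁ M q) hf hz he, div_mul_cancel₀ _ hz]

theorem map_pow_ub (hu : u ^ ℓ = 1) (huv : ((v : A) : Qbar) = u) : ub ^ ℓ = 1 := by
  have : v ^ ℓ = 1 := by
    refine Units.ext (Subtype.ext ?_)
    rw [Units.val_pow_eq_pow_val, SubmonoidClass.coe_pow, huv, ← Units.val_pow_eq_pow_val, hu]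
    rfl
  rw [← map_pow, this, map_one]

/-- The expansion in `q^{1/ℓ}` of a Hecke norm has residual series the product over the
embeddings; in particular the norm is nonzero. -/
theorem hasBar_qExpand_norm {N : ℕ} [NeZero N] (hℓ : ¬ ℓ ∣ N) (hu : IsPrimitiveRoot u ℓ)
    (huv : ((v : A) : Qbar) = u) {f : modularFunctionFieldBar N} {r : LaurentSeries kA}
    (hf : HasBar A (f : LaurentSeries Qbar) r) (hr : r ≠ 0) :
    HasBar A (qExpand Qbar ℓ ((normAlong (heckeAlphaBar Qbar N ℓ) (heckeBetaBar Qbar N ℓ f) :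
        modularFunctionFieldBar N) : LaurentSeries Qbar)) (embProd ℓ ub r) ∧
      normAlong (heckeAlphaBar Qbar N ℓ) (heckeBetaBar Qbar N ℓ f) ≠ 0 := by
  obtain ⟨w, hwα, hwβ⟩ := ModularFF.alInputs (q := ℓ) Fact.out N hℓ
  have hser := SemistableHecke.series_norm_alpha Fact.out hℓ hwα hwβ hu
    (heckeBetaBar Qbar N ℓ f)
  simp only [show w (heckeBetaBar Qbar N ℓ f) = heckeAlphaBar Qbar N ℓ f from
    DFunLike.congr_fun hwβ f, coe_heckeAlphaBar, coe_heckeBetaBar] at hser
  have hbar : HasBar A (qExpand Qbar ℓ ((normAlong (heckeAlphaBar Qbar N ℓ)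
      (heckeBetaBar Qbar N ℓ f) : modularFunctionFieldBar N) : LaurentSeries Qbar))
      (embProd ℓ ub r) := by
    rw [hser, embProd_eq]
    refine ((hf.qExpand ℓ).qExpand ℓ).mul (HasBar.prod _ fun j _ => ?_)
    rw [← map_pow]
    exact hasBar_twist hf (by rw [Units.val_pow_eq_pow_val, SubmonoidClass.coe_pow, huv,
      ← Units.val_pow_eq_pow_val])
  refine ⟨hbar, fun h0 => embProd_ne_zero ℓ ub hr ?_⟩
  rw [h0, ZeroMemClass.coe_zero, map_zero] at hbar
  exact hbar.unique ⟨0, 1, by simp, by simp, by simp⟩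

/-- The residue of a Hecke norm. -/
theorem exists_norm_res (hℓ : ¬ ℓ ∣ M * q) (hu : IsPrimitiveRoot u ℓ)
    (huv : ((v : A) : Qbar) = u) {f : modularFunctionFieldBar (M * q)}
    (hf : f ∈ (branch₁ S).O) (hr : (branch₁ S).res ⟨f, hf⟩ ≠ 0) :
    ∃ (c : Qbar) (y : FM) (a : kA), a ≠ 0 ∧
      qExpand kA ℓ (y : LaurentSeries kA) =
        embProd ℓ ub ((branch₁ S).res ⟨f, hf⟩ : LaurentSeries kA) ∧
      (branch₁ S).Mem c (normAlong (heckeAlphaBar Qbar (M * q) ℓ)
        (heckeBetaBar Qbar (M * q) ℓ f)) ∧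
      (branch₁ S).red c (normAlong (heckeAlphaBar Qbar (M * q) ℓ)
        (heckeBetaBar Qbar (M * q) ℓ f)) = a • y := by
  have hr' : ((branch₁ S).res ⟨f, hf⟩ : LaurentSeries kA) ≠ 0 := fun h => hr (Subtype.ext h)
  obtain ⟨hbar, hf'0⟩ := hasBar_qExpand_norm hℓ hu huv (hasBar_of_mem S hf) hr'
  obtain ⟨c, hc, hres⟩ := (branch₁ S).scale _ hf'0
  have hbar' := (hasBar_of_mem S hc).qExpand ℓ
  rw [IntermediateField.coe_smul, Algebra.smul_def, map_mul, qExpand_algebraMap,
    algebraMap_laurentSeries_eq_single] at hbar'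
  set r' := (branch₁ S).res ⟨_, hc⟩
  obtain ⟨a, ha, he⟩ := hbar.eq_const_mul (embProd_ne_zero ℓ ub hr') hbar'
    ((_root_.map_ne_zero _).mpr fun h => hres (Subtype.ext h))
  rw [← algebraMap_laurentSeries_eq_single] at he
  refine ⟨c, a⁻¹ • r', a, ha, ?_, hc, ?_⟩
  · rw [IntermediateField.coe_smul, Algebra.smul_def, map_mul, qExpand_algebraMap, he,
      ← mul_assoc, ← map_mul, inv_mul_cancel₀ ha, map_one, one_mul]
  · rw [(branch₁ S).red_eq hc, smul_smul, mul_inv_cancel₀ ha, one_smul]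

variable [IsFunctionField (ResidueField A) (modularFunctionFieldFullC (ResidueField A) M)]

variable (ℓ v M) in
/-- `y` is the residual norm of `r`. -/
def IsNrm (r y : FM) : Prop :=
  qExpand kA ℓ (y : LaurentSeries kA) = embProd ℓ ub (r : LaurentSeries kA)

theorem IsNrm.unique {r y y' : FM} (h : IsNrm M ℓ v r y) (h' : IsNrm M ℓ v r y') : y = y' :=
  Subtype.ext (qExpand_injective ℓ (h.trans h'.symm))

theorem IsNrm.mul {r r' y y' : FM} (h : IsNrm M ℓ v r y) (h' : IsNrm M ℓ v r' y') :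
    IsNrm M ℓ v (r * r') (y * y') := by
  unfold IsNrm at *
  push_cast
  rw [map_mul, h, h', embProd_mul]

theorem IsNrm.pow {r y : FM} (h : IsNrm M ℓ v r y) : ∀ n : ℕ, IsNrm M ℓ v (r ^ n) (y ^ n)
  | 0 => by simp [IsNrm, embProd_one]
  | n + 1 => by rw [pow_succ, pow_succ]; exact (h.pow n).mul h

/-- A norm of a nonzero function is nonzero. -/
theorem IsNrm.ne_zero {r y : FM} (h : IsNrm M ℓ v r y) (hr : r ≠ 0) : y ≠ 0 := fun h0 =>
  embProd_ne_zero ℓ ub (fun hr0 => hr (Subtype.ext hr0)) (by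
    rw [← show qExpand kA ℓ (y : LaurentSeries kA) = _ from h, h0, ZeroMemClass.coe_zero,
      map_zero])

variable (hℓ : ¬ ℓ ∣ M * q) (hu : IsPrimitiveRoot u ℓ) (huv : ((v : A) : Qbar) = u)
include S hℓ hu huv

theorem exists_isNrm_of_inB {r : FM} (hr : InB kA (Modular.jFb (k := kA) M) r) (hr0 : r ≠ 0) :
    ∃ y, IsNrm M ℓ v r y := by
  obtain ⟨x, -, hx⟩ := exists_lift_fin S hr
  have hres : (branch₁ S).res (alphaO₁ S x) = r := (res₁_alphaO₁ S x).trans hx
  obtain ⟨c, y, a, -, hy, -⟩ := exists_norm_res S hℓ hu huv (alphaO₁ S x).2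
    (by rw [hres]; exact hr0)
  exact ⟨y, hy.trans (by rw [hres])⟩

theorem exists_isNrm {r : FM} (hr0 : r ≠ 0) : ∃ y, IsNrm M ℓ v r y := by
  obtain ⟨P, hP, hB⟩ := Modular.exists_aeval_mul_inB (Modular.transcendental_jFb (k := kA) M) r
  set b := aeval (Modular.jFb (k := kA) M) P
  have hb0 : b ≠ 0 := fun h => Modular.transcendental_jFb (k := kA) M ⟨P, hP, h⟩
  have hbB : InB kA (Modular.jFb (k := kA) M) b := fun w hw =>
    ord_nonneg_of_mem w (aeval_mem w.algebraMap_mem' (mem_of_ord_nonneg w hw) P)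
  obtain ⟨y, hy⟩ := exists_isNrm_of_inB S hℓ hu huv hB (mul_ne_zero hb0 hr0)
  obtain ⟨z, hz⟩ := exists_isNrm_of_inB S hℓ hu huv hbB hb0
  refine ⟨y / z, ?_⟩
  have hz' : qExpand kA ℓ (z : LaurentSeries kA) ≠ 0 :=
    (_root_.map_ne_zero _).mpr fun h => hz.ne_zero hb0 (Subtype.ext h)
  unfold IsNrm at *
  push_cast at hy ⊢
  rw [map_div₀, div_eq_iff hz', hy, hz, ← embProd_mul, mul_comm]

omit hℓ hu huv S in
theorem coe_comp_aeval : (FM).val.toRingHom.comp
    (aeval (R := kA) (Modular.jFb (k := kA) M)).toRingHom = evalJC kA := by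
  refine RingHom.ext fun p => ?_
  show (FM).val (aeval (Modular.jFb (k := kA) M) p) = aeval (jqModC kA) p
  rw [← aeval_algHom_apply]
  rfl

omit hℓ hu huv S in
theorem inB_of_qExpand_mem {y : FM} (h : qExpand kA ℓ (y : LaurentSeries kA) ∈ tgt ℓ) :
    InB kA (Modular.jFb (k := kA) M) y := by
  have h1 := isIntegralElem_of_qExpand_mem ℓ h
  have h2 : ((aeval (R := kA) (Modular.jFb (k := kA) M)).toRingHom).IsIntegralElem y := by
    refine (isIntegralElem_map_iff (FM).val.toRingHom Subtype.val_injective).mp ?_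
    rwa [coe_comp_aeval]
  obtain ⟨P, hP, hPy⟩ := h2
  refine inB_of_root (p := P.map (aeval (Modular.jFb (k := kA) M)).toRingHom) (hP.map _)
    (fun i w hw => ?_) (by rw [eval_map]; exact hPy)
  rw [coeff_map]
  exact ord_nonneg_of_mem w (aeval_mem w.algebraMap_mem' (mem_of_ord_nonneg w hw) _)

omit hℓ hu huv S in
theorem isIntegralElem_of_inB {a : FM} (h : InB kA (Modular.jFb (k := kA) M) a) :
    (evalJC kA).IsIntegralElem (a : LaurentSeries kA) := by
  obtain ⟨P, hP, hPy⟩ := exists_monic_of_inB h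
  refine ⟨P, hP, ?_⟩
  rw [← coe_comp_aeval (M := M)]
  show eval₂ _ ((FM).val.toRingHom a) P = 0
  rw [← hom_eval₂, hPy, map_zero]

theorem IsNrm.inB {a y : FM} (h : IsNrm M ℓ v a y)
    (ha : InB kA (Modular.jFb (k := kA) M) a) : InB kA (Modular.jFb (k := kA) M) y :=
  inB_of_qExpand_mem (by
    rw [show qExpand kA ℓ (y : LaurentSeries kA) = _ from h]
    exact embProd_mem_tgt (map_pow_ub hu.pow_eq_one huv) (isIntegralElem_of_inB ha))

theorem ne_prime : ℓ ≠ q := fun h => hℓ (h ▸ dvd_mul_left q M)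

/-- The residual norm multiplies the orders of `Δ(τ)/Δ(qτ)` at the crossings by `ℓ + 1`. -/
theorem IsNrm.ord_hbar {y : FM} (h : IsNrm M ℓ v (hbar S) y)
    {s : Place kA FM} (hs : s ∈ nodeSet S) :
    s.ord y = ((ℓ : ℤ) + 1) * s.ord (hbar S) := by
  obtain ⟨ρ, ρ', hρ, hρ', hρρ', he⟩ := embProd_unitSeries (k := kA)
    (map_pow_ub hu.pow_eq_one huv) (ne_prime S hℓ hu huv)
  have hh0 : hbar S ^ (ℓ + 1) ≠ 0 := pow_ne_zero _ (hbar_ne_zero S)
  set e := y / hbar S ^ (ℓ + 1) with hedef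
  have hqe : qExpand kA ℓ (e : LaurentSeries kA) = ρ := by
    rw [hedef]
    push_cast
    rw [map_div₀, map_pow, show qExpand kA ℓ (y : LaurentSeries kA) = _ from h, coe_hbar, he,
      mul_div_cancel_left₀]
    exact pow_ne_zero _ ((_root_.map_ne_zero _).mpr (order_unitSeries q).1)
  have heB : InB kA (Modular.jFb (k := kA) M) e := inB_of_qExpand_mem (hqe ▸ hρ)
  have heB' : InB kA (Modular.jFb (k := kA) M) e⁻¹ := by
    refine inB_of_qExpand_mem (ℓ := ℓ) ?_
    push_cast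
    rwa [map_inv₀, hqe, inv_eq_of_mul_eq_one_right hρρ']
  have he0 : e ≠ 0 := div_ne_zero (h.ne_zero (hbar_ne_zero S)) hh0
  have h1 := heB s hs.1
  have h2 := heB' s hs.1
  rw [s.ord_inv] at h2
  rw [show y = e * hbar S ^ (ℓ + 1) from (div_mul_cancel₀ _ hh0).symm, s.ord_mul he0 hh0,
    FFBasic.ord_pow]
  push_cast
  omega

/-- A regular function without zeros at the crossings has such a residual norm. -/
theorem IsNrm.ord_eq_zero_of_inB {a y : FM} (h : IsNrm M ℓ v a y)
    (ha : InB kA (Modular.jFb (k := kA) M) a) (ha0 : a ≠ 0)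
    (hord : ∀ s ∈ nodeSet S, s.ord a = 0) {s : Place kA FM} (hs : s ∈ nodeSet S) :
    s.ord y = 0 := by
  classical
  have hj := Modular.transcendental_jFb (k := kA) M
  set N := (nodeSet_finite S).toFinset
  have hN : ∀ t, t ∈ N ↔ t ∈ nodeSet S := fun t => Set.Finite.mem_toFinset _
  obtain ⟨n₀, hn₀⟩ := exists_jets hj N (fun t ht => ((hN t).mp ht).1)
    (fun t => (t.ord (hbar S)).toNat)
  obtain ⟨c, hc, hcj⟩ := hn₀ n₀ le_rfl a⁻¹ fun t ht => by
    rw [t.ord_inv, hord t ((hN t).mp ht), neg_zero]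
  have hcB : InB kA (Modular.jFb (k := kA) M) c := inB_of_mem hc
  set e := (a * c - 1) / hbar S with hedef
  have heB : InB kA (Modular.jFb (k := kA) M) e := by
    intro t ht
    rcases eq_or_ne (a * c - 1) 0 with h0 | h0
    · simp [hedef, h0]
    rw [hedef, div_eq_mul_inv, t.ord_mul h0 (inv_ne_zero (hbar_ne_zero S)), t.ord_inv]
    by_cases htN : t ∈ nodeSet S
    · have h1 := le_ord_of_mem_ball (hcj t ((hN t).mpr htN)) (fun h1 => h0 (by
        rw [← sub_eq_zero.mp h1, mul_inv_cancel₀ ha0, sub_self]))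
      rw [show a * c - 1 = -(a * (a⁻¹ - c)) by rw [mul_sub, mul_inv_cancel₀ ha0]; ring,
        FFBasic.ord_neg, t.ord_mul ha0 (fun h1 => h0 (by
          rw [← sub_eq_zero.mp h1, mul_inv_cancel₀ ha0, sub_self])), hord t htN]
      have := htN.2
      omega
    · have h1 : 0 ≤ t.ord (a * c - 1) :=
        ord_nonneg_of_mem t (sub_mem (mem_of_ord_nonneg t ((ha.mul hcB) t ht)) (one_mem _))
      have h2 : ¬ 0 < t.ord (hbar S) := fun hp => htN ⟨ht, hp⟩
      omega
  have hac : a * c = 1 + hbar S * e := by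
    rw [hedef, mul_div_cancel₀ _ (hbar_ne_zero S)]
    ring
  have hval : ∀ t ∈ nodeSet S, ∀ g : FM, InB kA (Modular.jFb (k := kA) M) g →
      1 + hbar S * g ≠ 0 ∧ t.ord (1 + hbar S * g) = 0 := fun t ht g hg => by
    have h1 := ord_add_eq_left t (one_ne_zero (α := FM)) (g := hbar S * g) (by
      rcases eq_or_ne g 0 with rfl | hg0
      · rw [mul_zero]; exact zero_mem _
      refine mem_filt_of_le ?_
      rw [Place.ord_one, t.ord_mul (hbar_ne_zero S) hg0]
      have := ht.2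
      have := hg t ht.1
      omega)
    exact ⟨h1.1, h1.2.trans (Place.ord_one t)⟩
  have hc0 : c ≠ 0 := fun h0 => (hval s hs e heB).1 (by rw [← hac, h0, mul_zero])
  obtain ⟨z, hz⟩ := exists_isNrm S hℓ hu huv hc0
  obtain ⟨ρ, hρ, hρe⟩ := embProd_one_add (k := kA) (map_pow_ub hu.pow_eq_one huv)
    (ne_prime S hℓ hu huv) (isIntegralElem_of_inB heB)
  set y' := (y * z - 1) / hbar S with hy'def
  have hy'B : InB kA (Modular.jFb (k := kA) M) y' := by
    refine inB_of_qExpand_mem (ℓ := ℓ) ?_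
    have hyz : qExpand kA ℓ ((y * z : FM) : LaurentSeries kA) =
        1 + qExpand kA ℓ (unitSeries kA q) * ρ := by
      rw [← hρe, show qExpand kA ℓ ((y * z : FM) : LaurentSeries kA) =
        embProd ℓ ub ((a * c : FM) : LaurentSeries kA) from h.mul hz, hac]
      push_cast
      rw [coe_hbar]
    rw [hy'def]
    push_cast at hyz ⊢
    rw [map_div₀, map_sub, map_one, hyz, add_sub_cancel_left, coe_hbar, mul_div_cancel_left₀]
    · exact hρ
    · exact (_root_.map_ne_zero _).mpr (order_unitSeries q).1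
  have hyz : y * z = 1 + hbar S * y' := by
    rw [hy'def, mul_div_cancel₀ _ (hbar_ne_zero S)]
    ring
  have h1 := (hval s hs y' hy'B).2
  rw [← hyz, s.ord_mul (h.ne_zero ha0) (hz.ne_zero hc0)] at h1
  have h2 := h.inB S hℓ hu huv ha s hs.1
  have h3 := hz.inB S hℓ hu huv hcB s hs.1
  omega

/-- A function without zeros or poles at the crossings has such a residual norm. -/
theorem IsNrm.ord_eq_zero {g y : FM} (h : IsNrm M ℓ v g y) (hg0 : g ≠ 0)
    (hord : ∀ s ∈ nodeSet S, s.ord g = 0) {s : Place kA FM} (hs : s ∈ nodeSet S) :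
    s.ord y = 0 := by
  classical
  have hj := Modular.transcendental_jFb (k := kA) M
  set N := (nodeSet_finite S).toFinset
  have hN : ∀ t, t ∈ N ↔ t ∈ nodeSet S := fun t => Set.Finite.mem_toFinset _
  set P := (pol (K := kA) g).filter fun t => 0 ≤ t.ord (Modular.jFb (k := kA) M) with hPdef
  set n := (rrBound kA FM + Divisor.degree P + 1).toNat + 1 with hn
  set D := n • pol (K := kA) (Modular.jFb (k := kA) M) - P with hD
  obtain ⟨b, hb, hb0, hbord⟩ := exists_exact_rr (D := D) (by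
    rw [hD, map_sub, map_nsmul, nsmul_eq_mul]
    have h1 : (n : ℤ) * 1 ≤ (n : ℤ) * Divisor.degree (pol (K := kA) (Modular.jFb (k := kA) M)) :=
      mul_le_mul_of_nonneg_left (by have := degree_pol_pos (K := kA) hj; omega) (by omega)
    omega) N
  have hP : ∀ t, 0 ≤ t.ord (Modular.jFb (k := kA) M) → P t = max (-t.ord g) 0 := fun t ht => by
    rw [hPdef, Finsupp.filter_apply, if_pos ht, pol_apply]
  have hbB : ∀ t, 0 ≤ t.ord (Modular.jFb (k := kA) M) → P t ≤ t.ord b := fun t ht => by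
    have := (mem_riemannRochSpace_iff.mp hb t).resolve_left hb0
    rw [hD, Finsupp.sub_apply, Finsupp.smul_apply, pol_apply, max_eq_right (by omega)] at this
    simp only [smul_zero] at this
    omega
  have hbB' : InB kA (Modular.jFb (k := kA) M) b := fun t ht => by
    have := hbB t ht
    rw [hP t ht] at this
    omega
  have hab : InB kA (Modular.jFb (k := kA) M) (g * b) := fun t ht => by
    have := hbB t ht
    rw [hP t ht] at this
    rw [t.ord_mul hg0 hb0]
    omega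
  have hbn : ∀ t ∈ nodeSet S, t.ord b = 0 := fun t ht => by
    rw [hbord t ((hN t).mpr ht), hD, Finsupp.sub_apply, Finsupp.smul_apply, pol_apply,
      hP t ht.1, hord t ht, max_eq_right (by have := ht.1; omega)]
    simp
  obtain ⟨z, hz⟩ := exists_isNrm S hℓ hu huv hb0
  have h1 := (h.mul hz).ord_eq_zero_of_inB S hℓ hu huv hab (mul_ne_zero hg0 hb0)
    (fun t ht => by rw [t.ord_mul hg0 hb0, hord t ht, hbn t ht, add_zero]) hs
  rw [s.ord_mul (h.ne_zero hg0) (hz.ne_zero hb0),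
    hz.ord_eq_zero_of_inB S hℓ hu huv hbB' hb0 hbn hs, add_zero] at h1
  exact h1

/-- Orders proportional to those of `Δ(τ)/Δ(qτ)` at the crossings or to these divided by a
common divisor, are multiplied by `ℓ + 1`. -/
theorem IsNrm.ord_congr {r y : FM} (h : IsNrm M ℓ v r y) (hr0 : r ≠ 0) {m : ℕ} [NeZero m]
    {e : ℕ} (he : e ≠ 0) {w : Place kA FM → ℤ}
    (hw : ∀ s ∈ nodeSet S, s.ord (hbar S) = e * w s)
    {a : ZMod m} (hord : ∀ s ∈ nodeSet S, (s.ord r : ZMod m) = a * (w s : ZMod m))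
    {s : Place kA FM} (hs : s ∈ nodeSet S) :
    (s.ord y : ZMod m) = ((ℓ : ZMod m) + 1) * (a * (w s : ZMod m)) := by
  classical
  have hdvd : ∀ t ∈ nodeSet S, ∃ n : ℤ, t.ord r = (m : ℤ) * n + (a.val : ℤ) * w t :=
    fun t ht => by
      obtain ⟨n, hn⟩ := (ZMod.intCast_zmod_eq_zero_iff_dvd
        (t.ord r - (a.val : ℤ) * w t) m).mp
          (by push_cast; rw [hord t ht, ZMod.natCast_zmod_val, sub_self])
      exact ⟨n, by omega⟩
  choose! n hn using hdvd
  obtain ⟨z, hz⟩ := FFBasic.exists_ord_eq_forall (nodeSet_finite S).toFinset n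
  replace hz : ∀ t ∈ nodeSet S, z ≠ 0 ∧ t.ord z = n t := fun t ht =>
    hz t ((Set.Finite.mem_toFinset _).mpr ht)
  obtain ⟨hz0, hzs⟩ := hz s hs
  have hh0 := hbar_ne_zero S
  set d := z ^ (m * e) * hbar S ^ a.val with hd
  have hd0 : d ≠ 0 := mul_ne_zero (pow_ne_zero _ hz0) (pow_ne_zero _ hh0)
  have hre : r ^ e ≠ 0 := pow_ne_zero _ hr0
  have hg0 : r ^ e / d ≠ 0 := div_ne_zero hre hd0
  obtain ⟨yg, hyg⟩ := exists_isNrm S hℓ hu huv hg0
  obtain ⟨yz, hyz⟩ := exists_isNrm S hℓ hu huv hz0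
  obtain ⟨yh, hyh⟩ := exists_isNrm S hℓ hu huv hh0
  have hg : ∀ t ∈ nodeSet S, t.ord (r ^ e / d) = 0 := fun t ht => by
    rw [div_eq_mul_inv, t.ord_mul hre (inv_ne_zero hd0), t.ord_inv, hd,
      t.ord_mul (pow_ne_zero _ hz0) (pow_ne_zero _ hh0), FFBasic.ord_pow, FFBasic.ord_pow,
      FFBasic.ord_pow, (hz t ht).2, hn t ht, hw t ht]
    push_cast
    ring
  have hu' := (h.pow e).unique
    (show IsNrm M ℓ v (r ^ e) (yg * (yz ^ (m * e) * yh ^ a.val)) by
    have := hyg.mul ((hyz.pow (m * e)).mul (hyh.pow a.val))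
    rwa [← hd, div_mul_cancel₀ _ hd0] at this)
  have hord' := congrArg s.ord hu'
  rw [s.ord_mul (hyg.ne_zero hg0)
      (mul_ne_zero (pow_ne_zero _ (hyz.ne_zero hz0)) (pow_ne_zero _ (hyh.ne_zero hh0))),
    hyg.ord_eq_zero S hℓ hu huv hg0 hg hs,
    s.ord_mul (pow_ne_zero _ (hyz.ne_zero hz0)) (pow_ne_zero _ (hyh.ne_zero hh0)),
    FFBasic.ord_pow, FFBasic.ord_pow, FFBasic.ord_pow, hyh.ord_hbar S hℓ hu huv hs, hw s hs]
    at hord'
  have hy' : s.ord y = (m : ℤ) * s.ord yz + (a.val : ℤ) * (((ℓ : ℤ) + 1) * w s) := by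
    refine mul_left_cancel₀ (show (e : ℤ) ≠ 0 by exact_mod_cast he) ?_
    push_cast at hord'
    linear_combination hord'
  rw [hy']
  push_cast
  rw [ZMod.natCast_self, ZMod.natCast_zmod_val]
  ring

end FLTAgent.Semistable.Eisenstein
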