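import Fermat.Agent.Semistable.Setting
import Fermat.Agent.SemistableNodes.Width
import Fermat.Agent.FFBasic.AffineRing

/-!
# The node unit of `X₀(Mq)` at `q`

`Δ(τ)/Δ(qτ)` and its Atkin–Lehner conjugate form a node unit of the pair reduction, with
product `q ^ 12` (`nodeUnit`).  Used for the width and slope computations at `q`.
-/

set_option autoImplicit false

noncomputable section

open AlgebraicCurve ModularCurve FLTAgent.FFBasic FLTAgent.Deuring FLTAgent.HeckeJacobian
open FLTAgent.Semistable.Level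

namespace FLTAgent.Semistable.Eisenstein

local notation "Qbar" => AlgebraicClosure ℚ

theorem exists_mem_nsmul_pol {K F : Type*} [Field K] [Field F] [Algebra K F] [IsFunctionField K F]
    {x f : F} (hf : InB K x f) : ∃ n : ℕ, f ∈ riemannRochSpace (n • pol (K := K) x) :=
  exists_nsmul_poles_mem (mem_affineRing.mpr fun v hv => mem_of_ord_nonneg v (hf v hv))

variable {M q : ℕ} [NeZero M] [Fact q.Prime]
variable {k : Type} [Field k] [IsAlgClosed k] [CharP k q]
variable {A : ValuationSubring Qbar} {π : A →+* k} (S : Setting M q A π)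
variable [IsFunctionField k (modularFunctionFieldFullC k M)]
variable [IsFunctionField Qbar (modularFunctionFieldBar (M * q))]

omit [IsAlgClosed k] [CharP k q] [IsFunctionField k (modularFunctionFieldFullC k M)] in
theorem exists_deg : ∃ n : ℕ,
    S.al.h ∈ riemannRochSpace (n • pol (K := Qbar) (jA M q)) ∧
      S.al.w S.al.h ∈ riemannRochSpace (n • pol (K := Qbar) (jA M q)) := by
  obtain ⟨a, ha⟩ := exists_mem_nsmul_pol S.al.inB_h
  obtain ⟨b, hb⟩ := exists_mem_nsmul_pol S.al.inB_wh
  exact ⟨max a b, rr_nsmul_pol_mono _ (le_max_left a b) ha,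
    rr_nsmul_pol_mono _ (le_max_right a b) hb⟩

/-- The node unit of `X₀(Mq)`, with `Q = q ^ 12`. -/
def nodeUnit (hk : (hbar S : LaurentSeries k) ∈ IntermediateField.adjoin k {jqModC k}) :
    PairReduction.NodeUnit (pairReduction S hk) where
  Q := (q : Qbar) ^ 12
  Q_ne := pow_ne_zero _ (Nat.cast_ne_zero.mpr (Fact.out : q.Prime).ne_zero)
  Q_lt := by
    rw [map_pow]
    have h := valuation_lt_one_of_π_eq_zero (π := π) (a := (q : A))
      (by rw [map_natCast, CharP.cast_eq_zero])
    exact pow_lt_one₀ zero_le (by simpa using h) (by norm_num)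
  h := S.al.h
  h' := S.al.w S.al.h
  mul_eq := by rw [S.al.h_mul, map_pow, map_natCast]
  h_mem₁ := h_mem₁ S
  h_mem₂ := h_mem₂ S
  h'_mem₁ := wh_mem₁ S
  h'_mem₂ := wh_mem₂ S
  deg := (exists_deg S).choose
  h_rr := (exists_deg S).choose_spec.1
  h'_rr := (exists_deg S).choose_spec.2
  res_ne₁ := hbar_ne_zero S
  res_ne₂ := by
    show (branch₂ S).res ⟨S.al.w S.al.h, wh_mem₂ S⟩ ≠ 0
    rw [res₂_wh]
    exact hbar_ne_zero S

end FLTAgent.Semistable.Eisenstein
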