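import Fermat.Agent.SemistableEisenstein.NormMap
import Fermat.Agent.Semistable.Torsion
import Fermat.Agent.Semistable.Setting

/-!
# Eisenstein slopes

Slopes proportional to the orders of `Δ(τ)/Δ(qτ)` at the crossings, or to these divided by a
common divisor, are multiplied by `ℓ + 1` under `T_ℓ` for good primes `ℓ`
(`slope₁_hecke`, `slope₁_hecke_pairReduction`).
-/

set_option autoImplicit false

noncomputable section

open AlgebraicCurve ModularCurve IsLocalRing FLTAgent.FFBasic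
open FLTAgent.HeckeJacobian FLTAgent.Semistable.Level

namespace FLTAgent.Semistable.Eisenstein

local notation "Qbar" => AlgebraicClosure ℚ

variable {A : ValuationSubring Qbar} {M q : ℕ} [NeZero M] [Fact q.Prime]
  (S : Setting M q A (residue A))
variable [IsAlgClosed (ResidueField A)] [CharP (ResidueField A) q]
variable [IsFunctionField (ResidueField A) (modularFunctionFieldFullC (ResidueField A) M)]
variable [IsFunctionField Qbar (modularFunctionFieldBar (M * q))]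
variable {F₂ : Type*} [Field F₂] [Algebra (ResidueField A) F₂] {ι : Type*} [Fintype ι]
variable {m : ℕ} [NeZero m]

omit [NeZero m] in
/-- The slope of `T_ℓ x` on the first branch is given by the residual norm. -/
theorem exists_isNrm_slope₁_hecke
    (C : PairReduction A (residue A) (modularFunctionFieldBar (M * q))
      (modularFunctionFieldFullC (ResidueField A) M) F₂ ι)
    (hC : C.b₁ = branch₁ S) {ℓ : ℕ} [Fact ℓ.Prime] (hℓN : ¬ ℓ ∣ M * q) {u : Qbarˣ} {v : Aˣ}
    (hu : IsPrimitiveRoot u ℓ) (huv : ((v : A) : Qbar) = u) {T : C.TorsionData m} :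
    ∃ y : modularFunctionFieldFullC (ResidueField A) M, y ≠ 0 ∧ IsNrm M ℓ v T.bar.1 y ∧ ∀ s : ι,
      C.slope₁ m (heckeOperatorBar (M * q) ⟨ℓ, Fact.out⟩ T.cls) s =
        ((C.node₁ s).ord y : ZMod m) := by
  obtain ⟨E, hE, eE⟩ := heckeOperatorBar_mk (N := M * q) ⟨ℓ, Fact.out⟩
    ⟨T.D, T.degree_eq⟩
  simp only [scaledPush, scaledPull, ← heckeAlphaBar_eq,
    ← heckeBetaBar_eq] at eE
  set f' := normAlong (heckeAlphaBar Qbar (M * q) ℓ) (heckeBetaBar Qbar (M * q) ℓ T.f) with hf'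
  have hβ0 : heckeBetaBar Qbar (M * q) ℓ T.f ≠ 0 := (_root_.map_ne_zero _).mpr T.f_ne
  have hdiv : ∀ v, (m : ℤ) * (E : Divisor Qbar (modularFunctionFieldBar (M * q))) v = v.ord f' := by
    intro v
    rw [eE, ← nsmul_eq_mul, ← Finsupp.smul_apply, ← map_nsmul, ← map_nsmul,
      pushforwardAlong_apply_principal _ _ (FFBasic.finiteAlong _) (FFBasic.normFormulaAlong _ _)
        hβ0 (pullbackAlong_apply_principal _ _ (f := T.f) fun w => by
          rw [Finsupp.smul_apply, nsmul_eq_mul, T.div_eq])]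
  have hmem : T.c.1 • T.f ∈ (branch₁ S).O := hC ▸ T.mem.1
  set f₁ := T.c.1 • T.f
  have hbar₁ : T.bar.1 = (branch₁ S).res ⟨f₁, hmem⟩ := by
    show C.b₁.red T.c.1 T.f = _
    rw [hC]
    exact (branch₁ S).red_eq hmem
  obtain ⟨c, y, b, hb, hy, hcm, hcr⟩ := exists_norm_res S hℓN hu huv hmem
    (hbar₁ ▸ T.bar_ne₁)
  have hnrm : IsNrm M ℓ v T.bar.1 y := by
    rw [hbar₁]; exact hy
  have hy0 : y ≠ 0 := hnrm.ne_zero T.bar_ne₁
  have hscal : normAlong (heckeAlphaBar Qbar (M * q) ℓ) (heckeBetaBar Qbar (M * q) ℓ f₁) =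
      T.c.1 ^ finrankAlong Qbar (heckeAlphaBar Qbar (M * q) ℓ) • f' := by
    let := algebraAlong (heckeAlphaBar Qbar (M * q) ℓ)
    show Algebra.norm _ _ = _
    rw [show heckeBetaBar Qbar (M * q) ℓ f₁ =
      algebraMap (modularFunctionFieldBar (M * q)) (modularFunctionFieldBar (M * q * ℓ))
        (algebraMap Qbar _ T.c.1) * heckeBetaBar Qbar (M * q) ℓ T.f by
      show heckeBetaBar Qbar (M * q) ℓ (T.c.1 • T.f) = _
      rw [Algebra.smul_def T.c.1 T.f, map_mul, AlgHom.commutes]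
      congr 1,
      map_mul, Algebra.norm_algebraMap, Algebra.smul_def, map_pow]
    rfl
  set c₁ := c * T.c.1 ^ finrankAlong Qbar (heckeAlphaBar Qbar (M * q) ℓ)
  have e₁ : c • normAlong (heckeAlphaBar Qbar (M * q) ℓ) (heckeBetaBar Qbar (M * q) ℓ f₁) =
      c₁ • f' := by
    rw [hscal, smul_smul]
  have hm₁ : C.b₁.Mem c₁ f' := by
    rw [hC]
    show c₁ • f' ∈ (branch₁ S).O
    rw [← e₁]
    exact hcm
  have hr₁ : C.b₁.red c₁ f' = b • y := by
    rw [hC, ← hcr]
    exact ((branch₁ S).red_eq_res hcm e₁.symm).trans ((branch₁ S).red_eq hcm).symm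
  have hby : b • y ≠ 0 := smul_ne_zero hb hy0
  have hf'0 : f' ≠ 0 := fun h0 => hby (by rw [← hr₁, h0, C.b₁.red_zero])
  obtain ⟨c₂, -, hm₂, hr₂⟩ := C.b₂.exists_red_ne_zero hf'0
  let T' : C.TorsionData m :=
    { D := E
      degree_eq := E.2
      f := f'
      f_ne := hf'0
      div_eq := hdiv
      c := (c₁, c₂)
      mem := ⟨hm₁, hm₂⟩
      ne₁ := by show C.b₁.red c₁ f' ≠ 0; rw [hr₁]; exact hby
      ne₂ := hr₂ }
  have hT' : T'.cls = heckeOperatorBar (M * q) ⟨ℓ, Fact.out⟩ T.cls := hE.symm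
  refine ⟨y, hy0, hnrm, fun s => ?_⟩
  rw [PairReduction.slope₁_eq hT']
  show ((C.node₁ s).ord (C.b₁.red c₁ f') : ZMod m) = _
  rw [hr₁, FFBasic.ord_smul_const _ hb]

/-- If the slope of `x` is proportional to the orders of `Δ(τ)/Δ(qτ)` at the crossings divided by
`e` then the slope of `T_ℓ x` is `ℓ + 1` times the slope of `x`. -/
theorem slope₁_hecke
    (C : PairReduction A (residue A) (modularFunctionFieldBar (M * q))
      (modularFunctionFieldFullC (ResidueField A) M) F₂ ι)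
    (hC : C.b₁ = branch₁ S) (hnode : ∀ s, C.node₁ s ∈ nodeSet S)
    (hcover : ∀ t ∈ nodeSet S, ∃ s, C.node₁ s = t)
    {ℓ : ℕ} (hℓ : ℓ.Prime) (hℓN : ¬ ℓ ∣ M * q) {x : JZero (M * q)} (hx : m • x = 0)
    {e : ℕ} (he : e ≠ 0) {w : Place (ResidueField A)
      (modularFunctionFieldFullC (ResidueField A) M) → ℤ}
    (hw : ∀ t ∈ nodeSet S, t.ord (hbar S) = e * w t) {a : ZMod m}
    (ha : ∀ s, C.slope₁ m x s = a * (w (C.node₁ s) : ZMod m)) (s : ι) :
    C.slope₁ m (heckeOperatorBar (M * q) ⟨ℓ, hℓ⟩ x) s =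
      ((ℓ : ZMod m) + 1) * C.slope₁ m x s := by
  have : Fact ℓ.Prime := ⟨hℓ⟩
  obtain ⟨T, hT⟩ := C.exists_torsionData hx
  obtain ⟨u, hu⟩ := SemistableHecke.exists_primitiveRoot ℓ
  obtain ⟨v, hv⟩ := exists_unit_lift (A := A) hℓ.ne_zero hu.pow_eq_one
  obtain ⟨y, -, hnrm, hslope⟩ := exists_isNrm_slope₁_hecke S C hC hℓN hu hv (T := T)
  have hord : ∀ t ∈ nodeSet S,
      (t.ord T.bar.1 : ZMod m) = a * (w t : ZMod m) := fun t ht => by
    obtain ⟨s', rfl⟩ := hcover t ht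
    rw [← PairReduction.slope₁_eq hT, ha]
  rw [← hT, hslope s, hT, ha]
  exact hnrm.ord_congr S hℓN hu hv T.bar_ne₁ he hw hord (hnode s)

/-- The statement for the pair reduction of `X₀(Mq)`. -/
theorem slope₁_hecke_pairReduction
    (hk : (hbar S : LaurentSeries (ResidueField A)) ∈
      IntermediateField.adjoin (ResidueField A) {jqModC (ResidueField A)})
    {ℓ : ℕ} (hℓ : ℓ.Prime) (hℓN : ¬ ℓ ∣ M * q) {x : JZero (M * q)} (hx : m • x = 0)
    {e : ℕ} (he : e ≠ 0) {w : Place (ResidueField A)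
      (modularFunctionFieldFullC (ResidueField A) M) → ℤ}
    (hw : ∀ t ∈ nodeSet S, t.ord (hbar S) = e * w t) {a : ZMod m}
    (ha : ∀ s, (pairReduction S hk).slope₁ m x s = a * (w (node₁ S s) : ZMod m))
    (s : nodeSet S) :
    (pairReduction S hk).slope₁ m (heckeOperatorBar (M * q) ⟨ℓ, hℓ⟩ x) s =
      ((ℓ : ZMod m) + 1) * (pairReduction S hk).slope₁ m x s :=
  slope₁_hecke S (pairReduction S hk) rfl (fun t => t.2) (fun t ht => ⟨⟨t, ht⟩, rfl⟩) hℓ hℓN hx
    he hw ha s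

end FLTAgent.Semistable.Eisenstein
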