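import Fermat.Agent.Semistable.UnitSeries
import Fermat.Agent.CongruenceRel.EllCase
import Fermat.Agent.SemistableHecke.Residual
import Fermat.Agent.ModularFF.AtkinLehnerQbar

/-!
# Products over the embeddings into series in `q^{1/ℓ}`

In characteristic `q`: the products `embProd` over the embeddings of level `M` into series in
`q^{1/ℓ}`, their integrality, and the identity `embProd_unitSeries` for `Δ(τ)/Δ(qτ)`.
Used in `SemistableEisenstein.NormMap`.
-/

set_option autoImplicit false

noncomputable section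

open ModularCurve Polynomial FLTAgent.CongruenceRel
open FLTAgent.SemistableHecke (twist twist_coeff)

namespace FLTAgent.Semistable.Eisenstein

section Twist

variable {L : Type*} [Field L]

theorem twist_qExpand {ℓ : ℕ} [NeZero ℓ] {u : Lˣ} (hu : u ^ ℓ = 1) (x : LaurentSeries L) :
    twist u (qExpand L ℓ x) = qExpand L ℓ x := by
  ext n
  rw [twist_coeff]
  by_cases hn : (ℓ : ℤ) ∣ n
  · obtain ⟨m, rfl⟩ := hn
    rw [zpow_mul, zpow_natCast, hu, one_zpow, Units.val_one, one_mul]
  · rw [qExpand_coeff_of_not_dvd ℓ x hn, mul_zero]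

theorem twist_algebraMap (u : Lˣ) (c : L) :
    twist u (algebraMap L (LaurentSeries L) c) = algebraMap L (LaurentSeries L) c := by
  rw [algebraMap_laurentSeries_eq_single]
  ext n
  rw [twist_coeff]
  rcases eq_or_ne n 0 with rfl | hn
  · simp
  · simp [HahnSeries.coeff_single_of_ne hn]

end Twist

section Delta

variable (R : Type*) [CommRing R]

/-- The expansion of `Δ` over any ring. -/
def deltaOver : LaurentSeries R :=
  HahnSeries.single 1 1 *
    HahnSeries.ofPowerSeries ℤ R (dedekindEtaUnit.map (Int.castRingHom R))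

/-- The inverse of `Δ(τ) / Δ(nτ)` over any ring. -/
def unitSeriesInv (n : ℕ) [NeZero n] : LaurentSeries R :=
  HahnSeries.single ((n : ℤ) - 1) 1 *
    HahnSeries.ofPowerSeries ℤ R (dedekindEtaUnitInv.map (Int.castRingHom R)) *
    qExpand R n (HahnSeries.ofPowerSeries ℤ R (dedekindEtaUnit.map (Int.castRingHom R)))

theorem eta_mul_etaInv :
    HahnSeries.ofPowerSeries ℤ R (dedekindEtaUnit.map (Int.castRingHom R)) *
      HahnSeries.ofPowerSeries ℤ R (dedekindEtaUnitInv.map (Int.castRingHom R)) = 1 := by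
  rw [← map_mul, ← map_mul, dedekindEtaUnit_mul_inv, map_one, map_one]

theorem unitSeries_mul_inv (n : ℕ) [NeZero n] : unitSeries R n * unitSeriesInv R n = 1 := by
  set E := HahnSeries.ofPowerSeries ℤ R (dedekindEtaUnit.map (Int.castRingHom R))
  set E' := HahnSeries.ofPowerSeries ℤ R (dedekindEtaUnitInv.map (Int.castRingHom R))
  have hE : E * E' = 1 := eta_mul_etaInv R
  calc unitSeries R n * unitSeriesInv R n
      = HahnSeries.single (1 - (n : ℤ)) 1 * HahnSeries.single ((n : ℤ) - 1) 1 * (E * E') *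
          qExpand R n (E * E') := by
        rw [map_mul, unitSeries, unitSeriesInv]; ring
    _ = 1 := by
        rw [hE, (qExpand R n).map_one, HahnSeries.single_mul_single]
        simp

theorem unitSeries_mul_qExpand_delta (n : ℕ) [NeZero n] :
    unitSeries R n * qExpand R n (deltaOver R) = deltaOver R := by
  set E := HahnSeries.ofPowerSeries ℤ R (dedekindEtaUnit.map (Int.castRingHom R))
  set E' := HahnSeries.ofPowerSeries ℤ R (dedekindEtaUnitInv.map (Int.castRingHom R))
  have hE : E * E' = 1 := eta_mul_etaInv R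
  calc unitSeries R n * qExpand R n (deltaOver R)
      = HahnSeries.single (1 - (n : ℤ)) 1 * HahnSeries.single ((n : ℤ) * 1) 1 * E *
          qExpand R n (E * E') := by
        rw [unitSeries, deltaOver, map_mul, map_mul, qExpand_single]; ring
    _ = deltaOver R := by
        rw [hE, (qExpand R n).map_one, mul_one, HahnSeries.single_mul_single]
        simp [deltaOver, E]

theorem coeffMap_deltaOver {S : Type*} [CommRing S] (f : R →+* S) :
    coeffMap f (deltaOver R) = deltaOver S := by
  rw [deltaOver, deltaOver, map_mul, coeffMap_single, map_one, coeffMap_ofPowerSeries,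
    ← RingHom.comp_apply (PowerSeries.map f), ← PowerSeries.map_comp,
    RingHom.ext_int (f.comp (Int.castRingHom R)) (Int.castRingHom S)]

variable (q : ℕ) [Fact q.Prime]

theorem qExpand_delta_zmod :
    qExpand (ZMod q) q (deltaOver (ZMod q)) = deltaOver (ZMod q) ^ q := by
  rw [deltaOver, map_mul, qExpand_single, qExpand_ofPowerSeries, expand_eq_pow_zmod, mul_pow,
    HahnSeries.single_pow, one_pow, map_pow]
  simp

theorem qExpand_delta_char [CharP R q] : qExpand R q (deltaOver R) = deltaOver R ^ q := by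
  have h := congrArg (coeffMap (ZMod.castHom dvd_rfl R : ZMod q →+* R)) (qExpand_delta_zmod q)
  rwa [coeffMap_qExpand, map_pow, coeffMap_deltaOver] at h

theorem deltaOver_ne_zero (K : Type*) [Field K] : deltaOver K ≠ 0 :=
  mul_ne_zero (by simp) (fun h => by
    have := eta_mul_etaInv K
    rw [h, zero_mul] at this
    exact zero_ne_one this)

/-- In characteristic `q`, `Δ(τ)/Δ(qτ) = Δ ^ (1 - q)`. -/
theorem unitSeries_mul_delta_pow (K : Type*) [Field K] [CharP K q] :
    unitSeries K q * deltaOver K ^ (q - 1) = 1 := by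
  have h := unitSeries_mul_qExpand_delta K q
  have h' : unitSeries K q * deltaOver K ^ (q - 1) * deltaOver K = 1 * deltaOver K := by
    rw [one_mul, mul_assoc, ← pow_succ, Nat.sub_add_cancel (Fact.out : q.Prime).one_lt.le,
      ← qExpand_delta_char, h]
  exact mul_right_cancel₀ (deltaOver_ne_zero K) h'

end Delta

section Integral

local notation "Qbar" => AlgebraicClosure ℚ

variable (ℓ : ℕ) [Fact ℓ.Prime]

/-- `Δ(τ)/Δ(ℓτ)` and `ℓ ^ 12` times its inverse are integral over `ℤ[j]`. -/
theorem isIntegralElem_unitSeries_int :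
    (evalJ ℤ).IsIntegralElem (unitSeries ℤ ℓ) ∧
      (evalJ ℤ).IsIntegralElem ((ℓ : LaurentSeries ℤ) ^ 12 * unitSeriesInv ℤ ℓ) := by
  obtain ⟨w, -, -, -, -, h, hh, hmul, hint, hwint, -⟩ :=
    ModularFF.exists_al_delta (M := 1) (q := ℓ) Fact.out (Fact.out : ℓ.Prime).not_dvd_one
  have key : ∀ f : modularFunctionFieldBar (1 * ℓ),
      IsIntegral (Algebra.adjoin ℤ {ModularFF.jElt Qbar (1 * ℓ)}) f →
      (evalJ Qbar).IsIntegralElem (f : LaurentSeries Qbar) := by
    intro f hf
    have h1 := isIntegralElem_map (modularFunctionFieldBar (1 * ℓ)).val.toRingHom hf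
    refine isIntegralElem_of_forall (g := evalJ Qbar) (fun x => ?_) h1
    obtain ⟨P, hP⟩ := (Algebra.adjoin_singleton_eq_range_aeval ℤ
      (ModularFF.jElt Qbar (1 * ℓ))).le x.2
    have e : ((modularFunctionFieldBar (1 * ℓ)).val.toRingHom.comp (algebraMap
        (Algebra.adjoin ℤ {ModularFF.jElt Qbar (1 * ℓ)}) (modularFunctionFieldBar (1 * ℓ)))) x =
        evalJ Qbar P := by
      show (modularFunctionFieldBar (1 * ℓ)).val.toRingHom (x : modularFunctionFieldBar (1 * ℓ)) = _
      rw [← hP]
      refine RingHom.congr_fun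
        (?_ : (modularFunctionFieldBar (1 * ℓ)).val.toRingHom.comp (Polynomial.aeval (R := ℤ)
        (ModularFF.jElt Qbar (1 * ℓ))).toRingHom = evalJ Qbar) P
      exact Polynomial.ringHom_ext' (RingHom.ext_int _ _) (by simp [ModularFF.coe_jElt])
    rw [e]
    exact apply_mem_intRing _ P
  have hinj : Function.Injective (coeffMap (Int.castRingHom Qbar)) :=
    coeffMap_injective Int.cast_injective
  have hser : coeffMap (Int.castRingHom Qbar) (unitSeries ℤ ℓ) = (h : LaurentSeries Qbar) := by
    rw [hh, coeffEmb, ← unitSeries_rat, coeffMap_unitSeries, coeffMap_unitSeries]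
  have hwser : coeffMap (Int.castRingHom Qbar) ((ℓ : LaurentSeries ℤ) ^ 12 * unitSeriesInv ℤ ℓ) =
      (w h : LaurentSeries Qbar) := by
    have hne : coeffMap (Int.castRingHom Qbar) (unitSeries ℤ ℓ) ≠ 0 := fun h0 => by
      rw [coeffMap_unitSeries] at h0
      exact (order_unitSeries (R := Qbar) ℓ).1 h0
    refine mul_left_cancel₀ hne ?_
    have e1 : (h : LaurentSeries Qbar) * (w h : LaurentSeries Qbar) =
        (ℓ : LaurentSeries Qbar) ^ 12 := by
      have := congrArg (fun z : modularFunctionFieldBar (1 * ℓ) => (z : LaurentSeries Qbar)) hmul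
      simpa using this
    rw [← map_mul, mul_left_comm, unitSeries_mul_inv, mul_one, map_pow, map_natCast, hser, e1]
  constructor
  · refine (isIntegralElem_map_iff _ hinj).mp ?_
    rw [coeffMap_comp_evalJ, hser]
    exact key h hint
  · refine (isIntegralElem_map_iff _ hinj).mp ?_
    rw [coeffMap_comp_evalJ, hwser]
    exact key (w h) hwint

end Integral

section Residue

variable {k : Type} [Field k] (ℓ : ℕ) [Fact ℓ.Prime]

/-- `p ↦ p(j)` with constants from `k`. -/
def evalJC (k : Type) [Field k] : k[X] →+* LaurentSeries k :=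
  (aeval (R := k) (jqModC k)).toRingHom

/-- Series integral over `k[j(ℓτ)]`. -/
def tgt : Subring (LaurentSeries k) := intRing ((qExpand k ℓ).comp (evalJC k))

theorem isIntegralElem_evalJC {x : LaurentSeries k} (h : (evalJ k).IsIntegralElem x) :
    (evalJC k).IsIntegralElem x := by
  refine isIntegralElem_of_forall (g := evalJC k) (fun P => ?_) h
  rw [show evalJ k = (evalJC k).comp (mapRingHom (Int.castRingHom k)) from
    Polynomial.ringHom_ext' (RingHom.ext_int _ _) (by simp [evalJC])]
  exact apply_mem_intRing _ _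

theorem const_mem_tgt (c : k) : algebraMap k (LaurentSeries k) c ∈ tgt ℓ := by
  have h := apply_mem_intRing ((qExpand k ℓ).comp (evalJC k)) (C c)
  rwa [RingHom.comp_apply, show evalJC k (C c) = algebraMap k _ c from aeval_C _ c,
    qExpand_algebraMap] at h

theorem qExpand_mem_tgt {x : LaurentSeries k} (h : (evalJC k).IsIntegralElem x) :
    qExpand k ℓ x ∈ tgt ℓ :=
  isIntegralElem_map (qExpand k ℓ) h

theorem isIntegralElem_of_qExpand_mem {x : LaurentSeries k} (h : qExpand k ℓ x ∈ tgt ℓ) :
    (evalJC k).IsIntegralElem x :=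
  (isIntegralElem_map_iff (qExpand k ℓ) (qExpand_injective ℓ)).mp h

variable (u : kˣ)

/-- The embeddings into series in `q^{1/ℓ}`. -/
def emb : Option (Fin ℓ) → LaurentSeries k →+* LaurentSeries k
  | none => (qExpand k ℓ).comp (qExpand k ℓ)
  | some j => twist (u ^ (j : ℕ))

/-- The product over the embeddings. -/
def embProd (r : LaurentSeries k) : LaurentSeries k := ∏ i, emb ℓ u i r

theorem embProd_eq (r : LaurentSeries k) :
    embProd ℓ u r = qExpand k ℓ (qExpand k ℓ r) * ∏ j : Fin ℓ, twist (u ^ (j : ℕ)) r :=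
  Fintype.prod_option _

theorem embProd_mul (r s : LaurentSeries k) :
    embProd ℓ u (r * s) = embProd ℓ u r * embProd ℓ u s := by
  simp [embProd, Finset.prod_mul_distrib]

theorem embProd_one : embProd ℓ u (1 : LaurentSeries k) = 1 := by simp [embProd]

theorem embProd_ne_zero {r : LaurentSeries k} (hr : r ≠ 0) : embProd ℓ u r ≠ 0 :=
  Finset.prod_ne_zero_iff.mpr fun _ _ => (_root_.map_ne_zero _).mpr hr

variable {ℓ u} (hu : u ^ ℓ = 1)
include hu

omit [Fact ℓ.Prime] in
theorem pow_coe_pow (j : ℕ) : (u ^ j) ^ ℓ = 1 := by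
  rw [← pow_mul, mul_comm, pow_mul, hu, one_pow]

theorem emb_mem_tgt {x : LaurentSeries k} (hx : (evalJC k).IsIntegralElem x)
    (i : Option (Fin ℓ)) : emb ℓ u i x ∈ tgt ℓ := by
  have hj : emb ℓ u i (jqModC k) ∈ tgt ℓ := by
    cases i with
    | none =>
      exact qExpand_mem_tgt ℓ (isIntegralElem_evalJC (modularEquations_fwd_char k ℓ))
    | some j =>
      have h := isIntegralElem_map (twist (u ^ (j : ℕ))) (modularEquations_bwd_char k ℓ)
      refine isIntegralElem_of_forall (g := (qExpand k ℓ).comp (evalJC k)) (fun P => ?_) h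
      rw [RingHom.comp_apply, RingHom.comp_apply, twist_qExpand (pow_coe_pow hu _),
        show evalJ k P = evalJC k (mapRingHom (Int.castRingHom k) P) from RingHom.congr_fun
          (Polynomial.ringHom_ext' (f := evalJ k)
            (g := (evalJC k).comp (mapRingHom (Int.castRingHom k))) (RingHom.ext_int _ _)
            (by simp [evalJC])) P]
      exact apply_mem_intRing ((qExpand k ℓ).comp (evalJC k)) _
  have hc : ∀ c : k, emb ℓ u i (algebraMap k _ c) = algebraMap k _ c := fun c => by
    cases i with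
    | none => simp [emb, qExpand_algebraMap]
    | some j => exact twist_algebraMap _ c
  refine isIntegralElem_of_forall (g := (qExpand k ℓ).comp (evalJC k)) (fun P => ?_)
    (isIntegralElem_map (emb ℓ u i) hx)
  show emb ℓ u i (evalJC k P) ∈ tgt ℓ
  induction P using Polynomial.induction_on' with
  | add P Q hP hQ => rw [map_add, map_add]; exact add_mem hP hQ
  | monomial n c =>
    rw [show evalJC k (monomial n c) = algebraMap k _ c * jqModC k ^ n from aeval_monomial _,
      map_mul, map_pow, hc]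
    exact mul_mem (const_mem_tgt ℓ c) (pow_mem hj n)

theorem embProd_mem_tgt {x : LaurentSeries k} (hx : (evalJC k).IsIntegralElem x) :
    embProd ℓ u x ∈ tgt ℓ :=
  prod_mem fun i _ => emb_mem_tgt hu hx i

variable {q : ℕ} [Fact q.Prime] [CharP k q] (hℓq : ℓ ≠ q)
include hℓq

theorem emb_unit {i : Option (Fin ℓ)} :
    ∃ ρ ρ' : LaurentSeries k, ρ ∈ tgt ℓ ∧ ρ' ∈ tgt ℓ ∧ ρ * ρ' = 1 ∧
      emb ℓ u i (unitSeries k q) = qExpand k ℓ (unitSeries k q) * ρ := by
  have hℓ0 : (ℓ : k) ≠ 0 := by
    rw [Ne, CharP.cast_eq_zero_iff k q]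
    exact fun h => hℓq ((Nat.prime_dvd_prime_iff_eq Fact.out Fact.out).mp h).symm
  obtain ⟨h₁, h₂⟩ := isIntegralElem_unitSeries_int ℓ
  set U := unitSeries k ℓ
  set V := unitSeriesInv k ℓ
  have hUV : U * V = 1 := unitSeries_mul_inv k ℓ
  have hU : (evalJC k).IsIntegralElem U := by
    have h := isIntegralElem_map (coeffMap (Int.castRingHom k)) h₁
    rw [coeffMap_comp_evalJ, coeffMap_unitSeries] at h
    exact isIntegralElem_evalJC h
  have hV : (evalJC k).IsIntegralElem V := by
    have h := isIntegralElem_map (coeffMap (Int.castRingHom k)) h₂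
    have e : coeffMap (Int.castRingHom k) (unitSeriesInv ℤ ℓ) = V := by
      refine mul_left_cancel₀ (left_ne_zero_of_mul_eq_one hUV) ?_
      rw [hUV, show U = coeffMap (Int.castRingHom k) (unitSeries ℤ ℓ) from
        (coeffMap_unitSeries ℓ _).symm, ← map_mul, unitSeries_mul_inv, map_one]
    rw [coeffMap_comp_evalJ, map_mul, map_pow, map_natCast, e] at h
    have hc : algebraMap k (LaurentSeries k) ((ℓ : k) ^ 12)⁻¹ ∈ intRing (evalJC k) := by
      have := apply_mem_intRing (evalJC k) (C ((ℓ : k) ^ 12)⁻¹)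
      rwa [show evalJC k (C ((ℓ : k) ^ 12)⁻¹) = algebraMap k _ _ from aeval_C _ _] at this
    have := (intRing (evalJC k)).mul_mem hc (mem_intRing.mpr (isIntegralElem_evalJC h))
    rwa [← map_natCast (algebraMap k (LaurentSeries k)), ← map_pow, ← mul_assoc, ← map_mul,
      inv_mul_cancel₀ (pow_ne_zero _ hℓ0), map_one, one_mul, mem_intRing] at this
  set D := deltaOver k
  set H := unitSeries k q
  have hD : D ≠ 0 := deltaOver_ne_zero k
  have hUD : U * qExpand k ℓ D = D := unitSeries_mul_qExpand_delta k ℓ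
  have hH : H * D ^ (q - 1) = 1 := unitSeries_mul_delta_pow q k
  cases i with
  | none =>
    refine ⟨qExpand k ℓ U ^ (q - 1), qExpand k ℓ V ^ (q - 1),
      pow_mem (qExpand_mem_tgt ℓ hU) _, pow_mem (qExpand_mem_tgt ℓ hV) _, ?_, ?_⟩
    · rw [← mul_pow, ← map_mul, hUV, map_one, one_pow]
    · show qExpand k ℓ (qExpand k ℓ H) = _
      have hne : qExpand k ℓ (qExpand k ℓ D) ^ (q - 1) ≠ 0 :=
        pow_ne_zero _ ((_root_.map_ne_zero _).mpr ((_root_.map_ne_zero _).mpr hD))
      refine mul_right_cancel₀ hne ?_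
      rw [← map_pow, ← map_pow, ← map_mul, ← map_mul, hH, map_one, map_one, map_pow, map_pow,
        mul_assoc, ← mul_pow, ← map_mul (qExpand k ℓ) U, hUD, ← map_pow, ← map_mul, hH, map_one]
  | some j =>
    have hu' := pow_coe_pow hu (j : ℕ)
    refine ⟨twist (u ^ (j : ℕ)) V ^ (q - 1), twist (u ^ (j : ℕ)) U ^ (q - 1),
      pow_mem (emb_mem_tgt hu hV (some j)) _, pow_mem (emb_mem_tgt hu hU (some j)) _, ?_, ?_⟩
    · rw [← mul_pow, ← map_mul, mul_comm, hUV, map_one, one_pow]
    · show twist (u ^ (j : ℕ)) H = _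
      have hne : twist (u ^ (j : ℕ)) D ^ (q - 1) ≠ 0 :=
        pow_ne_zero _ ((_root_.map_ne_zero _).mpr hD)
      refine mul_right_cancel₀ hne ?_
      have hVD : twist (u ^ (j : ℕ)) V * twist (u ^ (j : ℕ)) D = qExpand k ℓ D := by
        rw [← map_mul, show V * D = qExpand k ℓ D by
          conv_lhs => rw [← hUD, ← mul_assoc, mul_comm V, hUV, one_mul], twist_qExpand hu']
      rw [← map_pow, ← map_mul, hH, map_one, map_pow, mul_assoc, ← mul_pow, hVD, ← map_pow,
        ← map_mul, hH, map_one]

/-- The product of the residue of `Δ(τ)/Δ(qτ)` is `ℓ + 1` times itself up to units. -/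
theorem embProd_unitSeries :
    ∃ ρ ρ' : LaurentSeries k, ρ ∈ tgt ℓ ∧ ρ' ∈ tgt ℓ ∧ ρ * ρ' = 1 ∧
      embProd ℓ u (unitSeries k q) = qExpand k ℓ (unitSeries k q) ^ (ℓ + 1) * ρ := by
  choose ρ ρ' h h' h1 he using fun i => emb_unit (i := i) hu hℓq
  refine ⟨∏ i, ρ i, ∏ i, ρ' i, prod_mem fun i _ => h i, prod_mem fun i _ => h' i, ?_, ?_⟩
  · rw [← Finset.prod_mul_distrib, Finset.prod_eq_one fun i _ => h1 i]
  · rw [embProd, Finset.prod_congr rfl fun i _ => he i, Finset.prod_mul_distrib, Finset.prod_const,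
      Finset.card_univ, Fintype.card_option, Fintype.card_fin]

/-- Functions congruent to one modulo `Δ(τ)/Δ(qτ)` have products congruent to one. -/
theorem embProd_one_add {e : LaurentSeries k} (he : (evalJC k).IsIntegralElem e) :
    ∃ ρ ∈ tgt ℓ, embProd ℓ u (1 + unitSeries k q * e) = 1 + qExpand k ℓ (unitSeries k q) * ρ := by
  classical
  set Hℓ := qExpand k ℓ (unitSeries k q)
  have hHℓ : Hℓ ∈ tgt ℓ := by
    obtain ⟨h₁, -⟩ := isIntegralElem_unitSeries_int q
    have h := isIntegralElem_map (coeffMap (Int.castRingHom k)) h₁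
    rw [coeffMap_comp_evalJ, coeffMap_unitSeries] at h
    exact qExpand_mem_tgt ℓ (isIntegralElem_evalJC h)
  have key : ∀ s : Finset (Option (Fin ℓ)), ∃ ρ ∈ tgt ℓ,
      ∏ i ∈ s, emb ℓ u i (1 + unitSeries k q * e) = 1 + Hℓ * ρ := by
    intro s
    induction s using Finset.induction_on with
    | empty => exact ⟨0, zero_mem _, by simp⟩
    | insert i s hi ih =>
      obtain ⟨ρ, hρ, hs⟩ := ih
      obtain ⟨t, -, ht, -, -, hit⟩ := emb_unit (i := i) hu hℓq
      set a := t * emb ℓ u i e
      have ha : a ∈ tgt ℓ := mul_mem ht (emb_mem_tgt hu he i)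
      refine ⟨a + ρ + Hℓ * a * ρ, add_mem (add_mem ha hρ) (mul_mem (mul_mem hHℓ ha) hρ), ?_⟩
      rw [Finset.prod_insert hi, hs, map_add, map_one, map_mul, hit]
      simp only [a, Hℓ]
      ring
  exact key Finset.univ

end Residue

end FLTAgent.Semistable.Eisenstein
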